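import Fermat.Agent.S17.HN.Geo.Mult

/-! # HN-GEO6 (part): the fields `hh_zero`, `mult0`, `mult1` of `htAx` -/

set_option autoImplicit false

namespace Fermat.Agent.S17.HN

open AlgebraicCurve Fermat.Agent.S24.FF Fermat.Agent.GAL.FF Fermat.Agent.S17.FFK

variable (X : RatCurve) (𝔥 : GHt)

/-- finitely many constants are dominated by one. -/
theorem ax_unif (b : ℕ) (Q : ℕ → ℝ → Prop) (hmono : ∀ n C C', C ≤ C' → Q n C → Q n C')
    (h : ∀ n ≤ b, ∃ C, Q n C) : ∃ C, ∀ n ≤ b, Q n C := by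
  classical
  choose! C hC using h
  refine ⟨∑ i ∈ Finset.range (b + 1), |C i|, fun n hn => ?_⟩
  refine hmono n (C n) _ ?_ (hC n hn)
  refine (le_abs_self _).trans ?_
  exact Finset.single_le_sum (f := fun i => |C i|) (fun i _ => abs_nonneg _)
    (Finset.mem_range.mpr (by omega))

theorem ax_hhN_zero (n : ℕ) : hhN X 𝔥 n 0 = 0 := by
  unfold hhN
  have h : X.W n 0 = X.V n := by
    unfold RatCurve.W RatCurve.V
    rw [sub_zero]
  rw [h, co_V, GHt.hS_top]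

theorem ax_hhN_nonneg (n : ℕ) (A : Divisor Qb X.F) : 0 ≤ hhN X 𝔥 n A := 𝔥.hS_nonneg _

theorem ax_up_zero : (FO.up (0 : Place Qb X.F →₀ ℕ) : Divisor Qb X.F) = 0 := by
  unfold FO.up
  rw [Finsupp.mapRange_zero]

theorem ax_le_mul (b j : ℕ) (hj : b + 3 ≤ j) : b + 3 * n0 X ≤ j * n0 X := by
  have h1 : 1 ≤ n0 X := by unfold n0; omega
  calc b + 3 * n0 X ≤ b * n0 X + 3 * n0 X := by nlinarith
    _ = (b + 3) * n0 X := by ring
    _ ≤ j * n0 X := Nat.mul_le_mul_right _ hj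

theorem ax_mult0 (b : ℕ) : ∃ J : ℕ, ∀ j ≥ J, ∃ C : ℝ, ∀ (B : Place Qb X.F →₀ ℕ) (p : Place Qb X.F),
    B.degree ≤ b →
    |(hhN X 𝔥 ((j + 1) * n0 X) (FO.up (B + FO.pt p)) - hhN X 𝔥 ((j + 1) * n0 X) (FO.up B))
      - hhN X 𝔥 (1 * n0 X) (FO.up (FO.pt p))
      - (hhN X 𝔥 (j * n0 X) (FO.up (B + FO.pt p)) - hhN X 𝔥 (j * n0 X) (FO.up B))| ≤ C := by
  refine ⟨b + 3, fun j hj => ?_⟩
  have hjn := ax_le_mul X b j hj
  have hn0 : n0 X = creg X + 3 + X.m0 := rfl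
  have key : ∃ C : ℝ, ∀ b' ≤ b, ∀ (A B : Divisor Qb X.F) (P : Place Qb X.F), 0 ≤ A →
      Divisor.degree A = (0 : ℕ) → 0 ≤ B → Divisor.degree B = b' →
      |(hhN X 𝔥 (n0 X + j * n0 X) (A + B + Finsupp.single P 1) - hhN X 𝔥 (n0 X + j * n0 X) (A + B))
        - (hhN X 𝔥 (n0 X) (A + Finsupp.single P 1) - hhN X 𝔥 (n0 X) A)
        - (hhN X 𝔥 (j * n0 X) (B + Finsupp.single P 1) - hhN X 𝔥 (j * n0 X) B)| ≤ C := by
    refine ax_unif b _ ?_ ?_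
    · intro n C C' hCC h A B P h1 h2 h3 h4
      exact (h A B P h1 h2 h3 h4).trans hCC
    · intro b' hb'
      exact mult_geo X 𝔥 (n0 X) (j * n0 X) 0 b' (by push_cast; omega) (by push_cast; omega)
        (by push_cast; omega)
  obtain ⟨C, hC⟩ := key
  refine ⟨C, fun B p hB => ?_⟩
  have h := hC B.degree hB 0 (FO.up B) p le_rfl (by simp) (up_nonneg X B) (degree_up X B)
  rw [zero_add, zero_add, ax_hhN_zero, sub_zero] at h
  have e1 : (j + 1) * n0 X = n0 X + j * n0 X := by ring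
  rw [e1, one_mul, up_add, up_single]
  exact_mod_cast h

theorem ax_mult1 (b : ℕ) : ∃ J : ℕ, ∀ j ≥ J, ∃ C : ℝ, ∀ (B : Place Qb X.F →₀ ℕ)
    (p q : Place Qb X.F), B.degree ≤ b →
    |(hhN X 𝔥 ((j + 1) * n0 X) (FO.up (B + FO.pt q + FO.pt p))
        - hhN X 𝔥 ((j + 1) * n0 X) (FO.up (B + FO.pt q)))
      - (hhN X 𝔥 (1 * n0 X) (FO.up (FO.pt q + FO.pt p)) - hhN X 𝔥 (1 * n0 X) (FO.up (FO.pt q)))
      - (hhN X 𝔥 (j * n0 X) (FO.up (B + FO.pt p)) - hhN X 𝔥 (j * n0 X) (FO.up B))| ≤ C := by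
  refine ⟨b + 3, fun j hj => ?_⟩
  have hjn := ax_le_mul X b j hj
  have hn0 : n0 X = creg X + 3 + X.m0 := rfl
  have key : ∃ C : ℝ, ∀ b' ≤ b, ∀ (A B : Divisor Qb X.F) (P : Place Qb X.F), 0 ≤ A →
      Divisor.degree A = (1 : ℕ) → 0 ≤ B → Divisor.degree B = b' →
      |(hhN X 𝔥 (n0 X + j * n0 X) (A + B + Finsupp.single P 1) - hhN X 𝔥 (n0 X + j * n0 X) (A + B))
        - (hhN X 𝔥 (n0 X) (A + Finsupp.single P 1) - hhN X 𝔥 (n0 X) A)
        - (hhN X 𝔥 (j * n0 X) (B + Finsupp.single P 1) - hhN X 𝔥 (j * n0 X) B)| ≤ C := by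
    refine ax_unif b _ ?_ ?_
    · intro n C C' hCC h A B P h1 h2 h3 h4
      exact (h A B P h1 h2 h3 h4).trans hCC
    · intro b' hb'
      exact mult_geo X 𝔥 (n0 X) (j * n0 X) 1 b' (by push_cast; omega) (by push_cast; omega)
        (by push_cast; omega)
  obtain ⟨C, hC⟩ := key
  refine ⟨C, fun B p q hB => ?_⟩
  have hq : Divisor.degree (FO.up (FO.pt q) : Divisor Qb X.F) = ((1 : ℕ) : ℤ) := by
    rw [degree_up]
    simp [FO.pt]
  have h := hC B.degree hB (FO.up (FO.pt q)) (FO.up B) p (up_nonneg X _) hq (up_nonneg X B)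
    (degree_up X B)
  have e1 : (j + 1) * n0 X = n0 X + j * n0 X := by ring
  rw [e1, one_mul, up_add, up_add, up_add, up_add, up_single X p]
  rw [add_comm (FO.up B) (FO.up (FO.pt q))]
  exact_mod_cast h

end Fermat.Agent.S17.HN
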