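import Fermat.Agent.S17.HN.Geo.Mult

/-! # HN-GEO6 (hedge): the field `m1` and the small fields of `htAx` as lemmas -/

set_option autoImplicit false

namespace Fermat.Agent.S17.HN

open AlgebraicCurve Fermat.Agent.S24.FF Fermat.Agent.GAL.FF Fermat.Agent.S17.FFK

variable (X : RatCurve) (𝔥 : GHt)

theorem ax_one_mem (n : ℕ) : (1 : X.F) ∈ X.V n := by
  classical
  unfold RatCurve.V
  rw [mem_riemannRochSpace_iff]
  intro v
  right
  rw [Place.ord_one]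
  unfold RatCurve.nInf
  rw [Finsupp.single_apply]
  split_ifs <;> simp

theorem ax_Dv_one (n : ℕ) : DvN X n (1 : X.F) = Finsupp.single X.inf n := by
  classical
  ext P
  unfold DvN RatCurve.nInf
  rw [Finsupp.mapRange_apply, Finsupp.add_apply, divOf_apply, Place.ord_one, zero_add,
    Finsupp.single_apply, Finsupp.single_apply]
  split_ifs <;> simp

theorem ax_hh_zero (n : ℕ) : hhN X 𝔥 n (FO.up (0 : Place Qb X.F →₀ ℕ)) = 0 := by
  have h0 : (FO.up (0 : Place Qb X.F →₀ ℕ) : Divisor Qb X.F) = 0 := by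
    unfold FO.up
    exact Finsupp.mapRange_zero
  unfold hhN
  rw [h0]
  have : X.W n 0 = X.V n := by
    unfold RatCurve.W RatCurve.V
    rw [sub_zero]
  rw [this, co_V]
  exact 𝔥.hS_top _

theorem ax_hh_nonneg (n : ℕ) (A : Divisor Qb X.F) : 0 ≤ hhN X 𝔥 n A := 𝔥.hS_nonneg _

theorem ax_m1 (b i : ℕ) : ∃ J : ℕ, ∀ j ≥ J, ∃ C : ℝ, ∀ (B : Place Qb X.F →₀ ℕ) (c : FnT X i),
    B.degree ≤ b →
    |hhN X 𝔥 ((j + i) * n0 X) (FO.up (B + DvN X (i * n0 X) c.1)) - hhN X 𝔥 (j * n0 X) (FO.up B)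
      - ((((j * n0 X : ℕ) : ℝ)) - (B.degree : ℝ) - (gen X : ℝ) + 1)
        * (𝔥.ht (prj X (i * n0 X) c.1) - 𝔥.ht (prj X (i * n0 X) 1))| ≤ C := by
  refine ⟨creg X + b, fun j hj => ?_⟩
  obtain ⟨C, hC⟩ := m1_geo X 𝔥 (i * n0 X) (j * n0 X)
  refine ⟨C + ((j * n0 X : ℕ) : ℝ) * 𝔥.ht (prj X (i * n0 X) 1) + 𝔥.ht (prj X (i * n0 X) 1), fun B c hB => ?_⟩
  have h1 := hC (FO.up B) c.1 c.2.1 c.2.2 (up_nonneg X B)
  have hn0 : 1 ≤ n0 X := by unfold n0; omega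
  have hjn : j ≤ j * n0 X := Nat.le_mul_of_pos_right j hn0
  have hfr := GeoMult.finrank_W X (j * n0 X) (FO.up B) (by
    rw [degree_up]
    have : (B.degree : ℤ) ≤ b := by exact_mod_cast hB
    have : ((creg X + b : ℕ) : ℤ) ≤ ((j * n0 X : ℕ) : ℤ) := by exact_mod_cast hj.trans hjn
    push_cast at this ⊢
    linarith)
  rw [degree_up] at hfr
  have hfr' : (Module.finrank Qb (X.W (j * n0 X) (FO.up B)) : ℝ)
      = ((j * n0 X : ℕ) : ℝ) - (B.degree : ℝ) - (gen X : ℝ) + 1 := by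
    have : ((Module.finrank Qb (X.W (j * n0 X) (FO.up B)) : ℤ) : ℝ)
        = (((j * n0 X : ℕ) : ℤ) : ℝ) - ((B.degree : ℤ) : ℝ) + 1 - ((gen X : ℤ) : ℝ) := by
      rw [hfr]; push_cast; ring
    push_cast at this ⊢
    linarith
  have hidx : (j + i) * n0 X = i * n0 X + j * n0 X := by ring
  rw [hidx, up_add, up_DvN X _ c.2.1 c.2.2, ← hfr']
  have hfr0 : (0 : ℝ) ≤ (Module.finrank Qb (X.W (j * n0 X) (FO.up B)) : ℝ) := Nat.cast_nonneg _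
  have hfrle : (Module.finrank Qb (X.W (j * n0 X) (FO.up B)) : ℝ) ≤ ((j * n0 X : ℕ) : ℝ) + 1 := by
    rw [hfr']
    have : (0 : ℝ) ≤ (B.degree : ℝ) := Nat.cast_nonneg _
    have : (0 : ℝ) ≤ (gen X : ℝ) := Nat.cast_nonneg _
    linarith
  have hh1 : 0 ≤ 𝔥.ht (prj X (i * n0 X) 1) := 𝔥.nonneg _
  have hprod : (Module.finrank Qb (X.W (j * n0 X) (FO.up B)) : ℝ) * 𝔥.ht (prj X (i * n0 X) 1)
      ≤ (((j * n0 X : ℕ) : ℝ) + 1) * 𝔥.ht (prj X (i * n0 X) 1) :=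
    mul_le_mul_of_nonneg_right hfrle hh1
  have hprod0 : 0 ≤ (Module.finrank Qb (X.W (j * n0 X) (FO.up B)) : ℝ) * 𝔥.ht (prj X (i * n0 X) 1) :=
    mul_nonneg hfr0 hh1
  rw [abs_le] at h1 ⊢
  constructor <;> nlinarith [h1.1, h1.2]

end Fermat.Agent.S17.HN
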