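import Fermat.Agent.S17.HN.Geo.Mult
import Fermat.Agent.S17.HN.Geo.AxM
import Fermat.Agent.S17.HN.Geo.AxM1

/-! # HN-GEO6: the axioms `FO.HtAx` hold for a `RatCurve` -/

set_option autoImplicit false

namespace Fermat.Agent.S17.HN

open AlgebraicCurve Fermat.Agent.S24.FF Fermat.Agent.GAL.FF Fermat.Agent.S17.FFK

variable (X : RatCurve) (𝔥 : GHt)

/-- **GEO6.**  NB: `hc` is shifted by the constant `ht (coordinates of 1)` so that `hc_one` holds; this
changes `m1` only by a bounded amount (`j`, `deg B ≤ b` are fixed there). -/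
noncomputable def htAx : FO.HtAx (Place Qb X.F) where
  oo := X.inf
  g := gen X
  n0 := n0 X
  n0_pos := by unfold n0; omega
  hh := fun j A => hhN X 𝔥 (j * n0 X) (FO.up A)
  Fn := FnT X
  Dv := fun {i} f => DvN X (i * n0 X) f.1
  hc := fun {i} f => 𝔥.ht (prj X (i * n0 X) f.1) - 𝔥.ht (prj X (i * n0 X) 1)
  one := fun i => ⟨1, one_ne_zero, ax_one_mem X _⟩
  Dv_one := fun i => ax_Dv_one X _
  hc_one := fun i => sub_self _
  deg_Dv := fun {i} c => degree_DvN X _ c.2.1 c.2.2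
  hh_zero := fun j => ax_hh_zero X 𝔥 _
  hh_nonneg := fun j A => ax_hh_nonneg X 𝔥 _ _
  mult0 := ax_mult0 X 𝔥
  mult1 := ax_mult1 X 𝔥
  m1 := ax_m1 X 𝔥

end Fermat.Agent.S17.HN
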