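import Fermat.Agent.S17.HN.NS
import Fermat.Agent.S17.HN.LA1

/-! # HN-GEO2: a rank condition on `μ(⊤, W)` defines a closed family (pure linear algebra) -/

set_option autoImplicit false

namespace Fermat.Agent.S17.HN

variable {K : Type} [Field K] {d₁ d₂ d₃ : ℕ}

/-- the matrix whose rows are `μ e_p (M i)`. -/
def closed2T (μ : (Fin d₁ → K) →ₗ[K] (Fin d₂ → K) →ₗ[K] (Fin d₃ → K)) {r : ℕ}
    (M : Matrix (Fin r) (Fin d₂) K) : Matrix (Fin d₁ × Fin r) (Fin d₃) K :=
  Matrix.of fun p => μ (Pi.single p.1 1) (M p.2)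

theorem closed2_span (μ : (Fin d₁ → K) →ₗ[K] (Fin d₂ → K) →ₗ[K] (Fin d₃ → K)) {r : ℕ}
    (M : Matrix (Fin r) (Fin d₂) K) :
    Submodule.span K (Set.range (closed2T μ M).row) = Submodule.map₂ μ ⊤ (rowSpan M) := by
  have htop : (⊤ : Submodule K (Fin d₁ → K)) =
      Submodule.span K (Set.range fun p : Fin d₁ => (Pi.single p 1 : Fin d₁ → K)) := by
    have := (Pi.basisFun K (Fin d₁)).span_eq
    rw [← this]
    congr 2
    funext p
    simp
  rw [htop, rowSpan, Submodule.map₂_span_span]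
  congr 1
  ext x
  constructor
  · rintro ⟨p, rfl⟩
    exact ⟨_, ⟨p.1, rfl⟩, _, ⟨p.2, rfl⟩, rfl⟩
  · rintro ⟨_, ⟨p, rfl⟩, _, ⟨i, rfl⟩, rfl⟩
    exact ⟨(p, i), rfl⟩

theorem closed2_rank (μ : (Fin d₁ → K) →ₗ[K] (Fin d₂ → K) →ₗ[K] (Fin d₃ → K)) {r : ℕ}
    (M : Matrix (Fin r) (Fin d₂) K) :
    (closed2T μ M).rank = Module.finrank K (Submodule.map₂ μ ⊤ (rowSpan M)) := by
  rw [Matrix.rank_eq_finrank_span_row, closed2_span]

theorem closed2_entry (μ : (Fin d₁ → K) →ₗ[K] (Fin d₂ → K) →ₗ[K] (Fin d₃ → K)) {r : ℕ}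
    (p : Fin d₁ × Fin r) (q : Fin d₃) :
    IsPolyFun (fun z : (Fin r × Fin d₂) → K =>
      closed2T μ (fun i j => z (i, j)) p q) := by
  have h : ∀ z : (Fin r × Fin d₂) → K, closed2T μ (fun i j => z (i, j)) p q =
      ∑ j : Fin d₂, z (p.2, j) * μ (Pi.single p.1 1) (Pi.single j 1) q := by
    intro z
    show μ (Pi.single p.1 1) (fun j => z (p.2, j)) q = _
    rw [LinearMap.pi_apply_eq_sum_univ (μ (Pi.single p.1 1)) (fun j => z (p.2, j))]
    rw [Finset.sum_apply]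
    refine Finset.sum_congr rfl fun j _ => ?_
    rw [Pi.smul_apply, smul_eq_mul]
    have hs : (fun j_1 => if j = j_1 then (1 : K) else 0) = Pi.single j 1 := by
      funext i
      rw [Pi.single_apply]
      simp only [eq_comm]
    rw [hs]
  simp only [h]
  exact IsPolyFun.sum _ fun j _ => (IsPolyFun.proj _).mul (IsPolyFun.const _)

/-- **GEO2** -/
theorem isClosedFam_rank' (μ : (Fin d₁ → K) →ₗ[K] (Fin d₂ → K) →ₗ[K] (Fin d₃ → K)) (r ρ : ℕ) :
    IsClosedFam r d₂ {W : Submodule K (Fin d₂ → K) | Module.finrank K W = r ∧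
      Module.finrank K (Submodule.map₂ μ ⊤ W) ≤ ρ} := by
  refine ⟨fun W hW => hW.1, (Fin (ρ + 1) → Fin d₁ × Fin r) × (Fin (ρ + 1) → Fin d₃),
    fun j z => ((closed2T μ (fun i j => z (i, j))).submatrix j.1 j.2).det, ?_, ?_⟩
  · intro j
    exact IsPolyFun.det fun a b => closed2_entry μ (j.1 a) (j.2 b)
  · intro M hM
    have hr : Module.finrank K (rowSpan M) = r := by
      have := finrank_span_eq_card hM
      rw [Fintype.card_fin] at this
      exact this
    show (∀ j : (Fin (ρ + 1) → Fin d₁ × Fin r) × (Fin (ρ + 1) → Fin d₃),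
      ((closed2T μ M).submatrix j.1 j.2).det = 0) ↔ (Module.finrank K (rowSpan M) = r ∧
        Module.finrank K (Submodule.map₂ μ ⊤ (rowSpan M)) ≤ ρ)
    rw [← closed2_rank, hr, eq_self_iff_true, true_and]
    constructor
    · intro h
      by_contra hcon
      rw [not_le] at hcon
      obtain ⟨a, b, hab⟩ := exists_submatrix_det_ne_zero' (closed2T μ M) (ρ + 1) hcon
      exact hab (h (a, b))
    · intro h j
      by_contra hcon
      have := le_rank_of_submatrix_det_ne_zero' (closed2T μ M) (ρ + 1) j.1 j.2 hcon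
      omega

end Fermat.Agent.S17.HN
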