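import Fermat.Agent.S17.HN.Geo.Co
import Fermat.Agent.S17.HN.NS
import Fermat.Agent.S17.HN.LA
import Fermat.Agent.S17.HN.Geo.Closed2

/-! # HN-GEO2/3: closed families -/

set_option autoImplicit false

namespace Fermat.Agent.S17.HN

open AlgebraicCurve Fermat.Agent.S24.FF Fermat.Agent.GAL.FF Fermat.Agent.S17.FFK

/-- **GEO2** (pure linear algebra): a rank condition on `μ(⊤, W)` defines a closed family. -/
theorem isClosedFam_rank {K : Type} [Field K] {d₁ d₂ d₃ : ℕ}
    (μ : (Fin d₁ → K) →ₗ[K] (Fin d₂ → K) →ₗ[K] (Fin d₃ → K)) (r ρ : ℕ) :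
    IsClosedFam r d₂ {W : Submodule K (Fin d₂ → K) | Module.finrank K W = r ∧
      Module.finrank K (Submodule.map₂ μ ⊤ W) ≤ ρ} :=
  isClosedFam_rank' μ r ρ

variable (X : RatCurve)

theorem geo3_degree_nInf (n : ℕ) : Divisor.degree (X.nInf n) = n := by
  unfold RatCurve.nInf
  rw [degree_single_one]

theorem geo3_nInf_add (k m : ℕ) : X.nInf k + X.nInf m = X.nInf (m + k) := by
  unfold RatCurve.nInf
  rw [← Finsupp.single_add]
  congr 1
  push_cast
  ring

/-- `map₂ μ ⊤ (co U)` in terms of `U * V m`. -/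
theorem geo3_finrank_map₂ (m k : ℕ) {U : Submodule Qb X.F} (hU : U ≤ X.V k) :
    Module.finrank Qb (Submodule.map₂ (mu X m k) ⊤ (co X k U))
      = Module.finrank Qb ↥(U * X.V m) := by
  rw [← co_V X m, ← co_mul X m k le_rfl hU, finrank_co X (m + k)
    ((mul_le_mul' le_rfl hU).trans (V_mul_V_le X m k)), mul_comm]

/-- **GEO3**: `Zfam k a` is given by such a rank condition (`FFK.IsReg.closedness`, `finrank_mul_L`). -/
theorem Zfam_eq (k a r : ℕ) (h : (creg X : ℤ) + 1 ≤ (k : ℤ) - a)
    (hr : (r : ℤ) = (k : ℤ) - a + 1 - gen X) :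
    Zfam X k a = {W : Submodule Qb (Fin (X.dimV k) → Qb) | Module.finrank Qb W = r ∧
      Module.finrank Qb (Submodule.map₂ (mu X (k + creg X) k) ⊤ W) ≤ X.dimV (k + creg X + k) - a} := by
  have hc := isReg_creg X
  have hdim : (X.dimV (k + creg X + k) : ℤ) = ell (X.nInf k + X.nInf (k + creg X)) := by
    rw [geo3_nInf_add]; rfl
  ext W
  constructor
  · rintro ⟨A, hA, hdeg, rfl⟩
    have hWV := W_le_V X k hA
    obtain ⟨h1, h2⟩ := hc.finrank_mul_L (D₀ := X.nInf k) (E := X.nInf (k + creg X)) hA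
      (by rw [geo3_degree_nInf, hdeg]; exact h)
      (by rw [geo3_degree_nInf, geo3_degree_nInf]; push_cast; omega)
    refine ⟨?_, ?_⟩
    · rw [finrank_co X k hWV]
      have e := hc (X.nInf k - A) (by rw [map_sub, geo3_degree_nInf, hdeg]; omega)
      rw [map_sub, geo3_degree_nInf, hdeg] at e
      have e' : (Module.finrank Qb (X.W k A) : ℤ) = _ := e
      unfold gen at hr
      omega
    · rw [geo3_finrank_map₂ X _ k hWV]
      have e : Module.finrank Qb ↥(X.W k A * X.V (k + creg X))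
          = ell (X.nInf k + X.nInf (k + creg X) - A) := by
        unfold RatCurve.W RatCurve.V
        rw [h1]
      rw [e]
      rw [hdeg] at h2
      omega
  · rintro ⟨hW1, hW2⟩
    obtain ⟨U, hU, rfl⟩ := exists_co_eq X k W
    rw [finrank_co X k hU] at hW1
    rw [geo3_finrank_map₂ X _ k hU] at hW2
    have hg : (genusFF Qb X.F : ℤ) ≤ k := by
      have := hc.genus_le (D := X.nInf k) (by rw [geo3_degree_nInf]; omega)
      rwa [geo3_degree_nInf] at this
    have e2 := hc (X.nInf k + X.nInf (k + creg X))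
      (by rw [map_add, geo3_degree_nInf, geo3_degree_nInf]; push_cast; omega)
    rw [map_add, geo3_degree_nInf, geo3_degree_nInf] at e2
    obtain ⟨A, hA, hdeg, hUA⟩ := hc.closedness (D₀ := X.nInf k) (E := X.nInf (k + creg X))
      (W := U) hU a
      (by rw [geo3_degree_nInf, hW1]; exact hr)
      (by rw [geo3_degree_nInf]; exact h)
      (by rw [geo3_degree_nInf, geo3_degree_nInf]; push_cast; omega)
      (by
        have : Module.finrank Qb ↥(U * riemannRochSpace (X.nInf (k + creg X)))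
            ≤ X.dimV (k + creg X + k) - a := hW2
        push_cast at e2
        omega)
    exact ⟨A, hA, hdeg, by rw [hUA]; rfl⟩

theorem isClosedFam_Zfam (k a r : ℕ) (h : (creg X : ℤ) + 1 ≤ (k : ℤ) - a)
    (hr : (r : ℤ) = (k : ℤ) - a + 1 - gen X) : IsClosedFam r (X.dimV k) (Zfam X k a) := by
  rw [Zfam_eq X k a r h hr]
  exact isClosedFam_rank _ _ _

end Fermat.Agent.S17.HN
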