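import Fermat.Agent.S17.HN.Geo.Defs

/-! # HN-GEO1: the coordinate dictionary -/

set_option autoImplicit false

namespace Fermat.Agent.S17.HN

open AlgebraicCurve Fermat.Agent.S24.FF Fermat.Agent.GAL.FF Fermat.Agent.S17.FFK

variable (X : RatCurve)

theorem co_prjV_coe (n : ℕ) (v : X.V n) : prjV X n (v : X.F) = v := by
  have h := Classical.choose_spec
    ((X.V n).subtype.exists_leftInverse_of_injective (Submodule.ker_subtype _))
  exact LinearMap.congr_fun h v

theorem co_inc_apply (n : ℕ) (x : Fin (X.dimV n) → Qb) :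
    inc X n x = (((basV X n).equivFun.symm x : X.V n) : X.F) := rfl

theorem co_prj_apply (n : ℕ) (f : X.F) : prj X n f = (basV X n).equivFun (prjV X n f) := rfl

theorem inc_mem (n : ℕ) (x : Fin (X.dimV n) → Qb) : inc X n x ∈ X.V n := by
  rw [co_inc_apply]
  exact Submodule.coe_mem _

theorem prj_inc (n : ℕ) (x : Fin (X.dimV n) → Qb) : prj X n (inc X n x) = x := by
  rw [co_inc_apply, co_prj_apply, co_prjV_coe, LinearEquiv.apply_symm_apply]

theorem inc_prj (n : ℕ) {f : X.F} (hf : f ∈ X.V n) : inc X n (prj X n f) = f := by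
  have h := co_prjV_coe X n ⟨f, hf⟩
  simp only at h
  rw [co_inc_apply, co_prj_apply, LinearEquiv.symm_apply_apply, h]

theorem W_le_V (n : ℕ) {A : Divisor Qb X.F} (hA : 0 ≤ A) : X.W n A ≤ X.V n :=
  L_mono (sub_le_self _ hA)

theorem co_nInf_add (k n : ℕ) : X.nInf (k + n) = X.nInf k + X.nInf n := by
  unfold RatCurve.nInf
  rw [Nat.cast_add, Finsupp.single_add]

theorem V_mul_V_le (k n : ℕ) : X.V k * X.V n ≤ X.V (k + n) := by
  unfold RatCurve.V
  rw [co_nInf_add]
  exact L_mul_le _ _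

theorem mu_apply (k n : ℕ) (x : Fin (X.dimV k) → Qb) (y : Fin (X.dimV n) → Qb) :
    mu X k n x y = prj X (k + n) (inc X k x * inc X n y) := rfl

theorem mu_prj (k n : ℕ) {f g : X.F} (hf : f ∈ X.V k) (hg : g ∈ X.V n) :
    mu X k n (prj X k f) (prj X n g) = prj X (k + n) (f * g) := by
  rw [mu_apply, inc_prj X k hf, inc_prj X n hg]

theorem mu_eq_zero (k n : ℕ) (x : Fin (X.dimV k) → Qb) (y : Fin (X.dimV n) → Qb)
    (h : mu X k n x y = 0) : x = 0 ∨ y = 0 := by
  rw [mu_apply] at h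
  have hmem : inc X k x * inc X n y ∈ X.V (k + n) :=
    V_mul_V_le X k n (Submodule.mul_mem_mul (inc_mem X k x) (inc_mem X n y))
  have h0 : inc X k x * inc X n y = 0 := by
    rw [← inc_prj X (k + n) hmem, h, map_zero]
  rcases mul_eq_zero.mp h0 with h1 | h1
  · left
    rw [← prj_inc X k x, h1, map_zero]
  · right
    rw [← prj_inc X n y, h1, map_zero]

theorem co_map_inc (n : ℕ) {U : Submodule Qb X.F} (hU : U ≤ X.V n) :
    (co X n U).map (inc X n) = U := by
  unfold co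
  ext f
  constructor
  · rintro ⟨_, ⟨g, hg, rfl⟩, rfl⟩
    rw [inc_prj X n (hU hg)]
    exact hg
  · intro hf
    exact ⟨_, ⟨f, hf, rfl⟩, inc_prj X n (hU hf)⟩

theorem finrank_co (n : ℕ) {U : Submodule Qb X.F} (hU : U ≤ X.V n) :
    Module.finrank Qb (co X n U) = Module.finrank Qb U := by
  have hinj : Function.Injective ((prj X n).domRestrict U) := by
    intro a b hab
    have h1 : prj X n (a : X.F) = prj X n (b : X.F) := hab
    apply Subtype.ext
    rw [← inc_prj X n (hU a.2), ← inc_prj X n (hU b.2), h1]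
  have h := LinearMap.finrank_range_of_inj hinj
  rw [LinearMap.range_domRestrict] at h
  exact h

theorem co_le_co (n : ℕ) {U U' : Submodule Qb X.F} (h : U ≤ U') : co X n U ≤ co X n U' :=
  Submodule.map_mono h

theorem co_injOn (n : ℕ) {U U' : Submodule Qb X.F} (hU : U ≤ X.V n) (hU' : U' ≤ X.V n)
    (h : co X n U = co X n U') : U = U' := by
  rw [← co_map_inc X n hU, ← co_map_inc X n hU', h]

theorem co_V (n : ℕ) : co X n (X.V n) = ⊤ := by
  rw [eq_top_iff]
  intro x _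
  exact ⟨inc X n x, inc_mem X n x, prj_inc X n x⟩

/-- every subspace of `Qb^d` is a `co` -/
theorem exists_co_eq (n : ℕ) (W : Submodule Qb (Fin (X.dimV n) → Qb)) :
    ∃ U : Submodule Qb X.F, U ≤ X.V n ∧ co X n U = W := by
  refine ⟨W.map (inc X n), ?_, ?_⟩
  · rintro _ ⟨x, -, rfl⟩
    exact inc_mem X n x
  · unfold co
    ext x
    constructor
    · rintro ⟨_, ⟨y, hy, rfl⟩, rfl⟩
      rw [prj_inc]
      exact hy
    · intro hx
      exact ⟨_, ⟨x, hx, rfl⟩, prj_inc X n x⟩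

theorem co_mul (k n : ℕ) {U₁ U₂ : Submodule Qb X.F} (h₁ : U₁ ≤ X.V k) (h₂ : U₂ ≤ X.V n) :
    co X (k + n) (U₁ * U₂) = Submodule.map₂ (mu X k n) (co X k U₁) (co X n U₂) := by
  apply le_antisymm
  · unfold co
    rw [Submodule.map_le_iff_le_comap, Submodule.mul_le]
    intro a ha b hb
    rw [Submodule.mem_comap, ← mu_prj X k n (h₁ ha) (h₂ hb)]
    exact Submodule.apply_mem_map₂ _ ⟨a, ha, rfl⟩ ⟨b, hb, rfl⟩
  · rw [Submodule.map₂_le]
    rintro _ ⟨a, ha, rfl⟩ _ ⟨b, hb, rfl⟩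
    rw [mu_prj X k n (h₁ ha) (h₂ hb)]
    exact ⟨a * b, Submodule.mul_mem_mul ha hb, rfl⟩

theorem co_mulMap (k n : ℕ) {f : X.F} (hf : f ∈ X.V k) {U : Submodule Qb X.F} (hU : U ≤ X.V n) :
    co X (k + n) (mulMap f U) = (co X n U).map (mu X k n (prj X k f)) := by
  unfold co
  ext x
  constructor
  · rintro ⟨_, ⟨g, hg, rfl⟩, rfl⟩
    exact ⟨_, ⟨g, hg, rfl⟩, mu_prj X k n hf (hU hg)⟩
  · rintro ⟨_, ⟨g, hg, rfl⟩, rfl⟩
    exact ⟨_, ⟨g, hg, rfl⟩, (mu_prj X k n hf (hU hg)).symm⟩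

/-- `up (DvN n f) = div f + n∞` -/
theorem up_DvN (n : ℕ) {f : X.F} (hf0 : f ≠ 0) (hf : f ∈ X.V n) :
    FO.up (DvN X n f) = divOf Qb f + X.nInf n := by
  have h : 0 ≤ X.nInf n + divOf Qb f := (mem_L_iff_divOf hf0).mp hf
  ext P
  have hP : 0 ≤ (divOf Qb f + X.nInf n) P := by
    rw [add_comm]; exact h P
  unfold FO.up DvN
  rw [Finsupp.mapRange_apply, Finsupp.mapRange_apply]
  exact Int.toNat_of_nonneg hP

/-- degree of an effective divisor: `Finsupp.degree` versus `Divisor.degree` -/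
theorem degree_up (A : Place Qb X.F →₀ ℕ) : Divisor.degree (FO.up A : Divisor Qb X.F) = (A.degree : ℤ) := by
  rw [degree_eq_sum, Finsupp.degree_apply]
  unfold FO.up
  rw [Finsupp.sum_mapRange_index (fun _ => rfl), Finsupp.sum, Nat.cast_sum]

theorem co_degree_nInf (n : ℕ) : Divisor.degree (X.nInf n) = n := by
  rw [degree_eq_sum]
  unfold RatCurve.nInf
  rw [Finsupp.sum_single_index rfl]

theorem degree_DvN (n : ℕ) {f : X.F} (hf0 : f ≠ 0) (hf : f ∈ X.V n) :
    (DvN X n f).degree = n := by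
  have h := degree_up X (DvN X n f)
  rw [up_DvN X n hf0 hf, map_add, degree_divOf, co_degree_nInf, zero_add] at h
  exact_mod_cast h.symm

theorem up_nonneg (A : Place Qb X.F →₀ ℕ) : (0 : Divisor Qb X.F) ≤ FO.up A := by
  intro P
  unfold FO.up
  rw [Finsupp.mapRange_apply]
  exact Int.natCast_nonneg _

theorem up_add (A B : Place Qb X.F →₀ ℕ) : FO.up (A + B) = FO.up A + FO.up B := by
  ext P
  unfold FO.up
  simp

theorem up_single (P : Place Qb X.F) (n : ℕ) :
    FO.up (Finsupp.single P n) = Finsupp.single P (n : ℤ) := by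
  unfold FO.up
  rw [Finsupp.mapRange_single]

theorem isReg_creg : IsReg Qb X.F (creg X : ℤ) :=
  (Classical.choose_spec (exists_isReg Qb X.F)).mono (Int.self_le_toNat _)

theorem co_mulMap_L {f : X.F} (hf : f ≠ 0) (D : Divisor Qb X.F) :
    mulMap f (riemannRochSpace D) = riemannRochSpace (D - divOf Qb f) := by
  ext g
  rw [Submodule.mem_map]
  constructor
  · rintro ⟨x, hx, rfl⟩
    show f * x ∈ _
    rcases eq_or_ne x 0 with rfl | hx0
    · simp
    rw [mem_L_iff_divOf hx0] at hx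
    rw [mem_L_iff_divOf (mul_ne_zero hf hx0), divOf_mul hf hx0]
    have : D - divOf Qb f + (divOf Qb f + divOf Qb x) = D + divOf Qb x := by abel
    rw [this]
    exact hx
  · intro hg
    refine ⟨f⁻¹ * g, ?_, ?_⟩
    · rcases eq_or_ne g 0 with rfl | hg0
      · simp
      rw [mem_L_iff_divOf hg0] at hg
      rw [mem_L_iff_divOf (mul_ne_zero (inv_ne_zero hf) hg0),
        divOf_mul (inv_ne_zero hf) hg0, divOf_inv]
      have : D + (-divOf Qb f + divOf Qb g) = D - divOf Qb f + divOf Qb g := by abel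
      rw [this]
      exact hg
    · show f * (f⁻¹ * g) = g
      rw [← mul_assoc, mul_inv_cancel₀ hf, one_mul]

/-- `f · W n B = W (k+n) (B + div f + k∞)` -/
theorem mulMap_W (k n : ℕ) {f : X.F} (hf0 : f ≠ 0) (B : Divisor Qb X.F) :
    mulMap f (X.W n B) = X.W (k + n) (B + (divOf Qb f + X.nInf k)) := by
  unfold RatCurve.W
  rw [co_mulMap_L X hf0, co_nInf_add]
  congr 1
  abel

end Fermat.Agent.S17.HN
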