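import Fermat.Agent.S17.HN.Defs
import Fermat.Agent.S17.HN.FO.Defs
import Fermat.Agent.S17.Defs
import Fermat.Agent.S17.FFK.CL

/-!
# S17 / HN / Geo: coordinates on `V n = L(n∞)`, heights `hhN n A` of `W n A = L(n∞ - A)`
(append-only; owner helper22)
-/

set_option autoImplicit false

noncomputable section

namespace Fermat.Agent.S17.HN

open AlgebraicCurve Fermat.Agent.S24.FF Fermat.Agent.GAL.FF Fermat.Agent.S17.FFK

variable (X : RatCurve)

instance finite_V (n : ℕ) : Module.Finite Qb (X.V n) := GAL.FF.finite_L _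

open Classical in
/-- a basis of `V n` consisting of rational functions (exists by `X.descent`; junk = any basis). -/
def basV (n : ℕ) : Module.Basis (Fin (X.dimV n)) Qb (X.V n) :=
  if h : ∃ b : Module.Basis (Fin (X.dimV n)) Qb (X.V n), ∀ i, X.IsRat (b i : X.F) then h.choose
  else Module.finBasis Qb (X.V n)

/-- a linear projection `F → V n`. -/
def prjV (n : ℕ) : X.F →ₗ[Qb] X.V n :=
  Classical.choose ((X.V n).subtype.exists_leftInverse_of_injective (Submodule.ker_subtype _))

/-- coordinates (on `V n`; junk outside). -/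
def prj (n : ℕ) : X.F →ₗ[Qb] (Fin (X.dimV n) → Qb) :=
  (basV X n).equivFun.toLinearMap ∘ₗ prjV X n

/-- the function with given coordinates. -/
def inc (n : ℕ) : (Fin (X.dimV n) → Qb) →ₗ[Qb] X.F :=
  (X.V n).subtype ∘ₗ (basV X n).equivFun.symm.toLinearMap

/-- multiplication `V k × V n → V (k+n)` in coordinates. -/
def mu (k n : ℕ) : (Fin (X.dimV k) → Qb) →ₗ[Qb] (Fin (X.dimV n) → Qb) →ₗ[Qb]
    (Fin (X.dimV (k + n)) → Qb) :=
  ((LinearMap.mul Qb X.F).compl₁₂ (inc X k) (inc X n)).compr₂ (prj X (k + n))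

/-- the coordinate subspace of `U ≤ V n`. -/
def co (n : ℕ) (U : Submodule Qb X.F) : Submodule Qb (Fin (X.dimV n) → Qb) := U.map (prj X n)

/-- the height of `W n A = L(n∞ - A)` inside `V n`. -/
def hhN (𝔥 : GHt) (n : ℕ) (A : Divisor Qb X.F) : ℝ := 𝔥.hS (co X n (X.W n A))

/-- the family of all `W k A`, `A ≥ 0` of degree `a`, in coordinates. -/
def Zfam (k a : ℕ) : Set (Submodule Qb (Fin (X.dimV k) → Qb)) :=
  {U | ∃ A : Divisor Qb X.F, 0 ≤ A ∧ Divisor.degree A = a ∧ U = co X k (X.W k A)}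

/-- a nonnegative regularity bound -/
def creg : ℕ := (Classical.choose (exists_isReg Qb X.F)).toNat

/-- the basic level -/
def n0 : ℕ := creg X + 3 + X.m0

/-- the genus -/
def gen : ℕ := genusFF Qb X.F

/-- nonzero elements of `V (i n0)` -/
def FnT (i : ℕ) : Type := {f : X.F // f ≠ 0 ∧ f ∈ X.V (i * n0 X)}

/-- `div f + n∞` as an effective divisor -/
def DvN (n : ℕ) (f : X.F) : Place Qb X.F →₀ ℕ :=
  (divOf Qb f + X.nInf n).mapRange Int.toNat rfl

end Fermat.Agent.S17.HN
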