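import Fermat.Agent.S17.HN.Geo.Closed
import Fermat.Agent.S17.HN.MG

/-! # HN-GEO4/5: (MULT) and (M1) for the heights `hhN` -/

set_option autoImplicit false

namespace Fermat.Agent.S17.HN

open AlgebraicCurve Fermat.Agent.S24.FF Fermat.Agent.GAL.FF Fermat.Agent.S17.FFK

variable (X : RatCurve) (𝔥 : GHt)

namespace GeoMult

theorem degree_nInf_sub (k : ℕ) (A : Divisor Qb X.F) :
    Divisor.degree (X.nInf k - A) = (k : ℤ) - Divisor.degree A := by
  rw [map_sub, RatCurve.nInf, degree_single_one]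

theorem nInf_add (k n : ℕ) : X.nInf (k + n) = X.nInf k + X.nInf n := by
  unfold RatCurve.nInf
  rw [Nat.cast_add, Finsupp.single_add]

/-- `dim W k A` in the regular range -/
theorem finrank_W (k : ℕ) (A : Divisor Qb X.F) (h : (creg X : ℤ) ≤ (k : ℤ) - Divisor.degree A) :
    (Module.finrank Qb (X.W k A) : ℤ) = (k : ℤ) - Divisor.degree A + 1 - gen X := by
  have := isReg_creg X (X.nInf k - A) (by rw [degree_nInf_sub]; exact h)
  rw [degree_nInf_sub] at this
  exact this

theorem W_add_single_le (k : ℕ) (A : Divisor Qb X.F) (P : Place Qb X.F) :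
    X.W k (A + Finsupp.single P 1) ≤ X.W k A := by
  unfold RatCurve.W
  apply L_mono
  have := sub_single_le (X.nInf k - A) P
  rwa [sub_sub] at this

theorem W_mul_W_le (k n : ℕ) (A B : Divisor Qb X.F) :
    X.W k A * X.W n B ≤ X.W (k + n) (A + B) := by
  unfold RatCurve.W
  refine (L_mul_le _ _).trans (le_of_eq ?_)
  rw [nInf_add]
  congr 1
  abel

theorem W_mul_W (k n : ℕ) (A B : Divisor Qb X.F)
    (h₁ : (creg X : ℤ) + 1 ≤ (k : ℤ) - Divisor.degree A)
    (h₂ : (k : ℤ) - Divisor.degree A + creg X ≤ (n : ℤ) - Divisor.degree B) :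
    X.W k A * X.W n B = X.W (k + n) (A + B) := by
  unfold RatCurve.W
  rw [(isReg_creg X).L_mul_L_of_le (by rw [degree_nInf_sub]; exact h₁)
    (by rw [degree_nInf_sub, degree_nInf_sub]; exact h₂), nInf_add]
  congr 1
  abel

theorem gen_le (d : ℤ) (h : (creg X : ℤ) + 1 ≤ d) : (gen X : ℤ) ≤ d := by
  have := (isReg_creg X).genus_le (D := Finsupp.single X.inf d) (by rw [degree_single_one]; exact h)
  rwa [degree_single_one] at this

end GeoMult

open GeoMult in
/-- **GEO4 (MULT).** -/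
theorem mult_geo (k n a b : ℕ) (h₁ : (creg X : ℤ) + 1 ≤ (k : ℤ) - a)
    (h₂ : (k : ℤ) - a + creg X ≤ (n : ℤ) - b) (h₃ : (creg X : ℤ) + 1 ≤ (n : ℤ) - b) :
    ∃ C : ℝ, ∀ (A B : Divisor Qb X.F) (P : Place Qb X.F), 0 ≤ A → Divisor.degree A = a → 0 ≤ B →
      Divisor.degree B = b →
      |(hhN X 𝔥 (k + n) (A + B + Finsupp.single P 1) - hhN X 𝔥 (k + n) (A + B))
        - (hhN X 𝔥 k (A + Finsupp.single P 1) - hhN X 𝔥 k A)
        - (hhN X 𝔥 n (B + Finsupp.single P 1) - hhN X 𝔥 n B)| ≤ C := by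
  have hg₁ := gen_le X _ h₁
  have hg₂ := gen_le X _ h₃
  obtain ⟨r, hr⟩ : ∃ r : ℕ, (r : ℤ) = (k : ℤ) - a - gen X := ⟨((k : ℤ) - a - gen X).toNat, by omega⟩
  obtain ⟨s, hs⟩ : ∃ s : ℕ, (s : ℤ) = (n : ℤ) - b - gen X := ⟨((n : ℤ) - b - gen X).toNat, by omega⟩
  obtain ⟨t, ht⟩ : ∃ t : ℕ, (t : ℤ) = (k : ℤ) + n - a - b - gen X :=
    ⟨((k : ℤ) + n - a - b - gen X).toNat, by omega⟩
  have hsingle : ∀ P : Place Qb X.F, (0 : Divisor Qb X.F) ≤ Finsupp.single P 1 := by
    intro P
    have := sub_single_le (Finsupp.single P 1 : Divisor Qb X.F) P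
    rwa [sub_self] at this
  -- the product of two members
  have hprod : ∀ A B : Divisor Qb X.F, 0 ≤ A → Divisor.degree A = a → 0 ≤ B → Divisor.degree B = b →
      Submodule.map₂ (mu X k n) (co X k (X.W k A)) (co X n (X.W n B))
        = co X (k + n) (X.W (k + n) (A + B)) := by
    intro A B hA hdA hB hdB
    rw [← co_mul X k n (W_le_V X k hA) (W_le_V X n hB),
      W_mul_W X k n A B (by rw [hdA]; exact h₁) (by rw [hdA, hdB]; exact h₂)]
  have hrank : ∀ W₁ ∈ Zfam X k a, ∀ W₂ ∈ Zfam X n b,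
      Module.finrank Qb (Submodule.map₂ (mu X k n) W₁ W₂) = t + 1 := by
    rintro _ ⟨A, hA, hdA, rfl⟩ _ ⟨B, hB, hdB, rfl⟩
    rw [hprod A B hA hdA hB hdB, finrank_co X (k + n) (W_le_V X (k + n) (add_nonneg hA hB))]
    have := finrank_W X (k + n) (A + B) (by rw [map_add, hdA, hdB]; push_cast; omega)
    rw [map_add, hdA, hdB] at this
    push_cast at this
    omega
  obtain ⟨C, hC⟩ := MULT_global 𝔥 (r := r) (s := s) (t := t) (mu X k n) (Zfam X k a) (Zfam X n b)
    (isClosedFam_Zfam X k a (r + 1) h₁ (by push_cast; omega))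
    (isClosedFam_Zfam X n b (s + 1) h₃ (by push_cast; omega)) hrank
  refine ⟨C, ?_⟩
  intro A B P hA hdA hB hdB
  have hAP : 0 ≤ A + Finsupp.single P 1 := add_nonneg hA (hsingle P)
  have hBP : 0 ≤ B + Finsupp.single P 1 := add_nonneg hB (hsingle P)
  have hABP : 0 ≤ A + B + Finsupp.single P 1 := add_nonneg (add_nonneg hA hB) (hsingle P)
  have key := hC (co X k (X.W k A)) ⟨A, hA, hdA, rfl⟩ (co X n (X.W n B)) ⟨B, hB, hdB, rfl⟩
    (co X k (X.W k (A + Finsupp.single P 1))) (co X n (X.W n (B + Finsupp.single P 1)))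
    (co X (k + n) (X.W (k + n) (A + B + Finsupp.single P 1)))
    (co_le_co X k (W_add_single_le X k A P))
    (by
      rw [finrank_co X k (W_le_V X k hAP)]
      have := finrank_W X k (A + Finsupp.single P 1)
        (by rw [map_add, hdA, degree_single_one]; omega)
      rw [map_add, hdA, degree_single_one] at this
      omega)
    (co_le_co X n (W_add_single_le X n B P))
    (by
      rw [finrank_co X n (W_le_V X n hBP)]
      have := finrank_W X n (B + Finsupp.single P 1)
        (by rw [map_add, hdB, degree_single_one]; omega)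
      rw [map_add, hdB, degree_single_one] at this
      omega)
    (by
      rw [hprod A B hA hdA hB hdB]
      exact co_le_co X (k + n) (W_add_single_le X (k + n) (A + B) P))
    (by
      rw [finrank_co X (k + n) (W_le_V X (k + n) hABP)]
      have := finrank_W X (k + n) (A + B + Finsupp.single P 1)
        (by rw [map_add, map_add, hdA, hdB, degree_single_one]; push_cast; omega)
      rw [map_add, map_add, hdA, hdB, degree_single_one] at this
      push_cast at this
      omega)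
    (by
      rw [← co_mul X k n (W_le_V X k hAP) (W_le_V X n hB)]
      refine co_le_co X (k + n) ((W_mul_W_le X k n _ _).trans (le_of_eq ?_))
      congr 1
      abel)
    (by
      rw [← co_mul X k n (W_le_V X k hA) (W_le_V X n hBP)]
      refine co_le_co X (k + n) ((W_mul_W_le X k n _ _).trans (le_of_eq ?_))
      congr 1
      abel)
  rw [hprod A B hA hdA hB hdB] at key
  exact key

/-- **GEO5 (M1).** -/
theorem m1_geo (m k : ℕ) : ∃ C : ℝ, ∀ (B : Divisor Qb X.F) (f : X.F), f ≠ 0 → f ∈ X.V m → 0 ≤ B →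
    |hhN X 𝔥 (m + k) (B + (divOf Qb f + X.nInf m)) - hhN X 𝔥 k B
      - (Module.finrank Qb (X.W k B) : ℝ) * 𝔥.ht (prj X m f)| ≤ C := by
  obtain ⟨C, hC⟩ := M1_global 𝔥 (mu X m k) (mu_eq_zero X m k)
  refine ⟨C, ?_⟩
  intro B f hf0 hf hB
  have hne : prj X m f ≠ 0 := by
    intro h0
    apply hf0
    rw [← inc_prj X m hf, h0, map_zero]
  have key := hC (prj X m f) (co X k (X.W k B)) hne
  rw [← co_mulMap X m k hf (W_le_V X k hB), mulMap_W X m k hf0 B,
    finrank_co X k (W_le_V X k hB)] at key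
  exact key

end Fermat.Agent.S17.HN
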